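import Fermat.Agent.Kummer.CaseII.Descent

set_option autoImplicit false

/-!
# The descent data for the ring of integers of the `p`-th cyclotomic field
-/

namespace Fermat.Agent.Kummer.CaseII

open NumberField Polynomial Finset

/-- In a ring of characteristic `p`, the `p`-th power of an integer polynomial evaluated at a
`p`-th root of unity is (the image of) a rational integer. -/
theorem aeval_pow_char {S : Type*} [CommRing S] (p : ℕ) [Fact p.Prime] [CharP S p]
    (f : ℤ[X]) {x : S} (hx : x ^ p = 1) :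
    (aeval x f) ^ p = ((∑ i ∈ range (f.natDegree + 1), (f.coeff i) ^ p : ℤ) : S) := by
  rw [aeval_eq_sum_range, sum_pow_char]
  push_cast
  refine Finset.sum_congr rfl fun i _ => ?_
  rw [zsmul_eq_mul, mul_pow, ← pow_mul, mul_comm i p, pow_mul, hx, one_pow, mul_one]

section

variable {p : ℕ} [hp : Fact p.Prime] {K : Type*} [Field K] [NumberField K]
  [IsCyclotomicExtension {p} ℚ K] {ζ : K} (hζ : IsPrimitiveRoot ζ p)

include hζ in
theorem natCast_mem_nonunits : (p : 𝓞 K) ∈ nonunits (𝓞 K) := by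
  intro h
  have hdvd : hζ.toInteger - 1 ∣ (p : 𝓞 K) :=
    hζ.toInteger_isPrimitiveRoot.sub_one_dvd_natCast hp.out.one_lt
  exact hζ.zeta_sub_one_prime'.not_isUnit (isUnit_of_dvd_unit hdvd h)

include hζ in
/-- `p`-th powers are congruent to rational integers modulo `p`. -/
theorem exists_int_dvd_pow_sub (α : 𝓞 K) : ∃ n : ℤ, (p : 𝓞 K) ∣ α ^ p - n := by
  have : CharP (𝓞 K ⧸ Ideal.span {(p : 𝓞 K)}) p := CharP.quotient (𝓞 K) p (natCast_mem_nonunits hζ)
  obtain ⟨f, hf⟩ := hζ.integralPowerBasis.exists_eq_aeval' α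
  rw [hζ.integralPowerBasis_gen] at hf
  refine ⟨∑ i ∈ range (f.natDegree + 1), (f.coeff i) ^ p, ?_⟩
  rw [← Ideal.mem_span_singleton, ← Ideal.Quotient.eq_zero_iff_mem, map_sub, map_pow, map_intCast,
    hf, sub_eq_zero]
  have h1 : (Ideal.Quotient.mk (Ideal.span {(p : 𝓞 K)})) ((aeval hζ.toInteger) f) =
      aeval (Ideal.Quotient.mk (Ideal.span {(p : 𝓞 K)}) hζ.toInteger) f :=
    (aeval_algHom_apply (Ideal.Quotient.mkₐ ℤ (Ideal.span {(p : 𝓞 K)})) hζ.toInteger f).symm
  rw [h1]
  apply aeval_pow_char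
  rw [← map_pow, hζ.toInteger_isPrimitiveRoot.pow_eq_one, map_one]

theorem descentData (hp3 : 3 ≤ p)
    (hK : KummerLemmaHolds p K) : DescentData p (𝓞 K) hζ.toInteger where
  prime := hp.out
  three_le := hp3
  isPrimitiveRoot := hζ.toInteger_isPrimitiveRoot
  prime_sub_one := hζ.zeta_sub_one_prime'
  card_quot := by
    have : NeZero p := ⟨hp.out.ne_zero⟩
    rw [hζ.card_quotient_toInteger_sub_one,
      hζ.norm_toInteger_sub_one_of_prime_ne_two' (by omega), Int.natAbs_natCast]
  pow_congr := exists_int_dvd_pow_sub hζ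
  assoc := IsCyclotomicExtension.Rat.associated_zeta_sub_one_pow_prime p hζ
  int_dvd := fun _ h => (IsCyclotomicExtension.Rat.zeta_sub_one_dvd_intCast_iff' p hζ).mp h
  kummer := hK

end

end Fermat.Agent.Kummer.CaseII
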