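import Fermat.Agent.Kummer.Defs

set_option autoImplicit false

/-!
# Case II of Fermat's Last Theorem for regular primes: the abstract descent

We work in an abstract principal ideal domain `R` containing a primitive `p`-th root of unity
`z`, with `l = z - 1` prime, residue ring of cardinality `p`, and in which Kummer's lemma holds.
We consider the generalised equation `x ^ p + y ^ p = ε * l ^ (m * p) * w ^ p` and show that a
solution with `m ≥ 1` forces `m ≥ 2` and yields a solution with `m - 1`.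
-/

namespace Fermat.Agent.Kummer.CaseII

open Polynomial Finset

section Abstract

variable {p : ℕ} {R : Type*} [CommRing R] [IsDomain R]

/-- The abstract hypotheses for the descent. -/
structure DescentData (p : ℕ) (R : Type*) [CommRing R] [IsDomain R] (z : R) : Prop where
  prime : p.Prime
  three_le : 3 ≤ p
  isPrimitiveRoot : IsPrimitiveRoot z p
  prime_sub_one : Prime (z - 1)
  card_quot : Nat.card (R ⧸ Ideal.span {z - 1}) = p
  pow_congr : ∀ α : R, ∃ n : ℤ, (p : R) ∣ α ^ p - n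
  assoc : Associated ((z - 1) ^ (p - 1)) (p : R)
  int_dvd : ∀ n : ℤ, z - 1 ∣ (n : R) → (p : ℤ) ∣ n
  kummer : ∀ u : Rˣ, (∃ n : ℤ, (p : R) ∣ (u : R) - n) → ∃ v : Rˣ, u = v ^ p

variable {z : R}

namespace DescentData

variable (D : DescentData p R z)
include D

theorem odd : Odd p := D.prime.odd_of_ne_two (by have := D.three_le; omega)

theorem one_mem : (1 : R) ∈ nthRootsFinset p (1 : R) :=
  (mem_nthRootsFinset D.prime.pos 1).mpr (one_pow p)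

theorem ne_zero : z - 1 ≠ 0 := D.prime_sub_one.ne_zero

/-- `p` divides `l ^ p`. -/
theorem p_dvd_pow : (p : R) ∣ (z - 1) ^ p := by
  obtain ⟨u, hu⟩ := D.assoc
  refine ⟨(z - 1) * (u⁻¹ : Rˣ), ?_⟩
  have hp1 : p = (p - 1) + 1 := by have := D.prime.pos; omega
  calc (z - 1) ^ p = (z - 1) ^ (p - 1) * (z - 1) := by rw [← pow_succ, ← hp1]
    _ = (z - 1) ^ (p - 1) * u * ((z - 1) * (u⁻¹ : Rˣ)) := by
      have : (u : R) * ((u⁻¹ : Rˣ) : R) = 1 := Units.mul_inv u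
      linear_combination (-(z - 1) ^ (p - 1) * (z - 1)) * this
    _ = (p : R) * ((z - 1) * (u⁻¹ : Rˣ)) := by rw [hu]

/-- `l` divides `p`. -/
theorem sub_one_dvd_p : z - 1 ∣ (p : R) := by
  obtain ⟨u, hu⟩ := D.assoc
  rw [← hu]
  have hp1 : p - 1 = (p - 2) + 1 := by have := D.three_le; omega
  exact Dvd.dvd.mul_right (dvd_pow_self _ (by rw [hp1]; exact Nat.succ_ne_zero _)) _

/-- Every factor `x + η y` is divisible by `l`. -/
theorem sub_one_dvd_factor {x y w : R} {ε : Rˣ} {m : ℕ} (hm : 1 ≤ m)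
    (H : x ^ p + y ^ p = ε * (z - 1) ^ (m * p) * w ^ p) :
    ∀ η ∈ nthRootsFinset p (1 : R), z - 1 ∣ x + η * y := by
  have hdvd : z - 1 ∣ ∏ η ∈ nthRootsFinset p (1 : R), (x + η * y) := by
    rw [← D.isPrimitiveRoot.pow_add_pow_eq_prod_add_mul x y D.odd, H]
    have hmp : m * p ≠ 0 := Nat.mul_ne_zero (by omega) D.prime.ne_zero
    exact Dvd.dvd.mul_right (Dvd.dvd.mul_left (dvd_pow_self _ hmp) _) _
  obtain ⟨η₁, hη₁, h₁⟩ := (Prime.dvd_finsetProd_iff D.prime_sub_one _).mp hdvd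
  intro η hη
  have : x + η * y = (x + η₁ * y) + (η - η₁) * y := by ring
  rw [this]
  exact dvd_add h₁ (Dvd.dvd.mul_right (D.isPrimitiveRoot.sub_one_dvd_sub D.prime hη hη₁) _)

/-- The key identities relating two of the quotients `a η = (x + η y) / l`. -/
theorem exists_unit_sub {x y a₁ a₂ η₁ η₂ : R} (hη₁ : η₁ ∈ nthRootsFinset p (1 : R))
    (hη₂ : η₂ ∈ nthRootsFinset p (1 : R)) (hne : η₁ ≠ η₂)
    (h₁ : x + η₁ * y = (z - 1) * a₁) (h₂ : x + η₂ * y = (z - 1) * a₂) :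
    ∃ u : Rˣ, a₁ - a₂ = u * y ∧ η₂ * a₁ - η₁ * a₂ = -(u * x) := by
  obtain ⟨u, hu⟩ := D.isPrimitiveRoot.nthRootsFinset_pairwise_associated_sub_one_sub_of_prime
    D.prime hη₁ hη₂ hne
  refine ⟨u, ?_, ?_⟩
  · apply mul_left_cancel₀ D.ne_zero
    linear_combination -h₁ + h₂ - y * hu
  · apply mul_left_cancel₀ D.ne_zero
    linear_combination -η₂ * h₁ + η₁ * h₂ + x * hu

theorem not_dvd_sub {x y a₁ a₂ η₁ η₂ : R} (hη₁ : η₁ ∈ nthRootsFinset p (1 : R))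
    (hη₂ : η₂ ∈ nthRootsFinset p (1 : R)) (hne : η₁ ≠ η₂)
    (h₁ : x + η₁ * y = (z - 1) * a₁) (h₂ : x + η₂ * y = (z - 1) * a₂) (hy : ¬ z - 1 ∣ y) :
    ¬ z - 1 ∣ a₁ - a₂ := by
  obtain ⟨u, hu, -⟩ := D.exists_unit_sub hη₁ hη₂ hne h₁ h₂
  rw [hu]
  intro h
  rcases D.prime_sub_one.dvd_or_dvd h with h | h
  · exact D.prime_sub_one.not_isUnit (isUnit_of_dvd_unit h u.isUnit)
  · exact hy h

theorem isCoprime_quot {x y a₁ a₂ η₁ η₂ : R} (hη₁ : η₁ ∈ nthRootsFinset p (1 : R))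
    (hη₂ : η₂ ∈ nthRootsFinset p (1 : R)) (hne : η₁ ≠ η₂)
    (h₁ : x + η₁ * y = (z - 1) * a₁) (h₂ : x + η₂ * y = (z - 1) * a₂) (hxy : IsCoprime x y) :
    IsCoprime a₁ a₂ := by
  obtain ⟨u, hu₁, hu₂⟩ := D.exists_unit_sub hη₁ hη₂ hne h₁ h₂
  obtain ⟨s, t, hst⟩ := hxy
  have huu : (u : R) * ((u⁻¹ : Rˣ) : R) = 1 := Units.mul_inv u
  refine ⟨-s * (u⁻¹ : Rˣ) * η₂ + t * (u⁻¹ : Rˣ), s * (u⁻¹ : Rˣ) * η₁ - t * (u⁻¹ : Rˣ), ?_⟩
  linear_combination (-s * ((u⁻¹ : Rˣ) : R)) * hu₂ + (t * ((u⁻¹ : Rˣ) : R)) * hu₁ + hst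
    + (s * x + t * y) * huu

/-- Pigeonhole: one of the quotients is divisible by `l`. -/
theorem exists_dvd_quot {x y : R} {a : R → R}
    (ha : ∀ η ∈ nthRootsFinset p (1 : R), x + η * y = (z - 1) * a η) (hy : ¬ z - 1 ∣ y) :
    ∃ η₀ ∈ nthRootsFinset p (1 : R), z - 1 ∣ a η₀ := by
  classical
  have hfin : Finite (R ⧸ Ideal.span {z - 1}) :=
    Nat.finite_of_card_ne_zero (by rw [D.card_quot]; exact D.prime.ne_zero)
  let f : (nthRootsFinset p (1 : R)) → R ⧸ Ideal.span {z - 1} :=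
    fun η => Ideal.Quotient.mk _ (a η)
  have hinj : Function.Injective f := by
    intro η₁ η₂ h
    by_contra hne
    have hne' : (η₁ : R) ≠ η₂ := fun h' => hne (Subtype.ext h')
    have h' : a η₁ - a η₂ ∈ Ideal.span {z - 1} := Ideal.Quotient.eq.mp h
    rw [Ideal.mem_span_singleton] at h'
    exact D.not_dvd_sub η₁.2 η₂.2 hne' (ha _ η₁.2) (ha _ η₂.2) hy h'
  have hcard : Nat.card (R ⧸ Ideal.span {z - 1}) ≤ Nat.card (nthRootsFinset p (1 : R)) := by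
    rw [D.card_quot, Nat.card_eq_fintype_card, Fintype.card_coe,
      D.isPrimitiveRoot.card_nthRootsFinset]
  obtain ⟨η₀, hη₀⟩ := (hinj.bijective_of_nat_card_le hcard).2 0
  refine ⟨η₀, η₀.2, ?_⟩
  have : a η₀ ∈ Ideal.span {z - 1} := Ideal.Quotient.eq_zero_iff_mem.mp hη₀
  exact Ideal.mem_span_singleton.mp this

/-- A unit times a `p`-th power which is a multiple of `l`-free data: helper to derive
contradictions from `l ∣ ε * w ^ p`. -/
theorem not_dvd_unit_mul_pow {w : R} (ε : Rˣ) (hw : ¬ z - 1 ∣ w) : ¬ z - 1 ∣ (ε : R) * w ^ p := by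
  intro h
  rcases D.prime_sub_one.dvd_or_dvd h with h | h
  · exact D.prime_sub_one.not_isUnit (isUnit_of_dvd_unit h ε.isUnit)
  · exact hw (D.prime_sub_one.dvd_of_dvd_pow h)

omit D in
/-- In a pairwise coprime family whose product is a unit times a `p`-th power, every member
is associated to a `p`-th power. -/
theorem exists_associated_pow_of_prod [IsPrincipalIdealRing R] {ι : Type*} [DecidableEq ι]
    {s : Finset ι} {f : ι → R} {w : R} {ε : Rˣ}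
    (hcop : ∀ i ∈ s, ∀ j ∈ s, i ≠ j → IsCoprime (f i) (f j))
    (hprod : ∏ i ∈ s, f i = ε * w ^ p) {i : ι} (hi : i ∈ s) :
    ∃ ρ : R, Associated (ρ ^ p) (f i) := by
  have hc : IsCoprime (f i) (∏ j ∈ s.erase i, f j) :=
    IsCoprime.prod_right fun j hj =>
      hcop i hi j (Finset.mem_of_mem_erase hj) (Finset.ne_of_mem_erase hj).symm
  refine exists_associated_pow_of_associated_pow_mul hc (c := w) ?_
  rw [Finset.mul_prod_erase s f hi, hprod]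
  exact ⟨ε, by ring⟩

/-- **The descent step.** -/
theorem descent [IsPrincipalIdealRing R] {x y w : R} {ε : Rˣ} {m : ℕ} (hm : 1 ≤ m)
    (hxy : IsCoprime x y) (hy : ¬ z - 1 ∣ y) (hw : ¬ z - 1 ∣ w)
    (H : x ^ p + y ^ p = ε * (z - 1) ^ (m * p) * w ^ p) :
    2 ≤ m ∧ ∃ (x' y' w' : R) (ε' : Rˣ), IsCoprime x' y' ∧ ¬ z - 1 ∣ y' ∧ ¬ z - 1 ∣ w' ∧
      x' ^ p + y' ^ p = ε' * (z - 1) ^ ((m - 1) * p) * w' ^ p := by
  classical
  have hfac := D.sub_one_dvd_factor hm H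
  choose! a ha using hfac
  obtain ⟨η₀, hη₀, hdvd₀⟩ := D.exists_dvd_quot ha hy
  have hndvd : ∀ η ∈ nthRootsFinset p (1 : R), η ≠ η₀ → ¬ z - 1 ∣ a η := by
    intro η hη hne h
    exact D.not_dvd_sub hη hη₀ hne (ha η hη) (ha η₀ hη₀) hy (dvd_sub h hdvd₀)
  -- the product of the quotients
  have hprod : ∏ η ∈ nthRootsFinset p (1 : R), a η = ε * (z - 1) ^ ((m - 1) * p) * w ^ p := by
    have h1 : ∏ η ∈ nthRootsFinset p (1 : R), (x + η * y) =
        (z - 1) ^ p * ∏ η ∈ nthRootsFinset p (1 : R), a η := by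
      rw [Finset.prod_congr rfl ha, Finset.prod_mul_distrib, Finset.prod_const,
        D.isPrimitiveRoot.card_nthRootsFinset]
    have h2 : (z - 1) ^ (m * p) = (z - 1) ^ p * (z - 1) ^ ((m - 1) * p) := by
      rw [← pow_add]
      congr 1
      obtain ⟨k, rfl⟩ : ∃ k, m = k + 1 := ⟨m - 1, by omega⟩
      simp only [Nat.add_sub_cancel]
      ring
    apply mul_left_cancel₀ (pow_ne_zero p D.ne_zero)
    rw [← h1, ← D.isPrimitiveRoot.pow_add_pow_eq_prod_add_mul x y D.odd, H, h2]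
    ring
  set B := ∏ η ∈ (nthRootsFinset p (1 : R)).erase η₀, a η with hB
  have hB' : a η₀ * B = ε * (z - 1) ^ ((m - 1) * p) * w ^ p := by
    rw [hB, Finset.mul_prod_erase _ a hη₀, hprod]
  have hBndvd : ¬ z - 1 ∣ B := by
    intro h
    obtain ⟨η, hη, hd⟩ := (Prime.dvd_finsetProd_iff D.prime_sub_one _).mp h
    exact hndvd η (Finset.mem_of_mem_erase hη) (Finset.ne_of_mem_erase hη) hd
  -- `m ≥ 2`
  have hm2 : 2 ≤ m := by
    by_contra hlt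
    have hm1 : m = 1 := by omega
    subst hm1
    simp only [Nat.sub_self, zero_mul, pow_zero, mul_one] at hB'
    exact D.not_dvd_unit_mul_pow ε hw (hB' ▸ Dvd.dvd.mul_right hdvd₀ B)
  refine ⟨hm2, ?_⟩
  -- extract the power of `l` from `a η₀`
  have hpow : (z - 1) ^ ((m - 1) * p) ∣ a η₀ := by
    apply D.prime_sub_one.pow_dvd_of_dvd_mul_right _ hBndvd
    rw [hB']
    exact Dvd.dvd.mul_right (Dvd.intro_left _ rfl) _
  obtain ⟨a₀, ha₀⟩ := hpow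
  have ha₀B : a₀ * B = ε * w ^ p := by
    apply mul_left_cancel₀ (pow_ne_zero ((m - 1) * p) D.ne_zero)
    rw [← mul_assoc, ← ha₀, hB']
    ring
  have ha₀ndvd : ¬ z - 1 ∣ a₀ := fun h =>
    D.not_dvd_unit_mul_pow ε hw (ha₀B ▸ Dvd.dvd.mul_right h B)
  -- the modified family
  set a' : R → R := fun η => if η = η₀ then a₀ else a η with ha'
  have ha'₀ : a' η₀ = a₀ := by simp [ha']
  have ha'ne : ∀ η, η ≠ η₀ → a' η = a η := fun η hne => by simp [ha', hne]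
  have ha'dvd : ∀ η, a' η ∣ a η := by
    intro η
    by_cases h : η = η₀
    · rw [h, ha'₀, ha₀]; exact Dvd.intro_left _ rfl
    · rw [ha'ne η h]
  have hprod' : ∏ η ∈ nthRootsFinset p (1 : R), a' η = ε * w ^ p := by
    rw [← Finset.mul_prod_erase _ a' hη₀, ha'₀, ← ha₀B, hB]
    congr 1
    exact Finset.prod_congr rfl fun η hη => ha'ne η (Finset.ne_of_mem_erase hη)
  have hcop' : ∀ η₁ ∈ nthRootsFinset p (1 : R), ∀ η₂ ∈ nthRootsFinset p (1 : R), η₁ ≠ η₂ →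
      IsCoprime (a' η₁) (a' η₂) := by
    intro η₁ hη₁ η₂ hη₂ hne
    have := D.isCoprime_quot hη₁ hη₂ hne (ha η₁ hη₁) (ha η₂ hη₂) hxy
    exact (this.of_isCoprime_of_dvd_left (ha'dvd η₁)).of_isCoprime_of_dvd_right (ha'dvd η₂)
  -- choose two further roots of unity
  have hcard : 1 < ((nthRootsFinset p (1 : R)).erase η₀).card := by
    rw [Finset.card_erase_of_mem hη₀, D.isPrimitiveRoot.card_nthRootsFinset]
    have := D.three_le
    omega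
  obtain ⟨η₁, hη₁e, η₂, hη₂e, hne₁₂⟩ := Finset.one_lt_card.mp hcard
  have hη₁ := Finset.mem_of_mem_erase hη₁e
  have hη₂ := Finset.mem_of_mem_erase hη₂e
  have hne₁₀ : η₁ ≠ η₀ := Finset.ne_of_mem_erase hη₁e
  have hne₂₀ : η₂ ≠ η₀ := Finset.ne_of_mem_erase hη₂e
  obtain ⟨ρ₀, u₀, hρ₀⟩ := exists_associated_pow_of_prod hcop' hprod' hη₀
  obtain ⟨ρ₁, u₁, hρ₁⟩ := exists_associated_pow_of_prod hcop' hprod' hη₁
  obtain ⟨ρ₂, u₂, hρ₂⟩ := exists_associated_pow_of_prod hcop' hprod' hη₂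
  rw [ha'₀] at hρ₀
  rw [ha'ne η₁ hne₁₀] at hρ₁
  rw [ha'ne η₂ hne₂₀] at hρ₂
  have hp0 : p ≠ 0 := D.prime.ne_zero
  have hρ₂ndvd : ¬ z - 1 ∣ ρ₂ := fun h =>
    hndvd η₂ hη₂ hne₂₀ (hρ₂ ▸ Dvd.dvd.mul_right (dvd_pow h hp0) _)
  have hρ₀ndvd : ¬ z - 1 ∣ ρ₀ := fun h =>
    ha₀ndvd (hρ₀ ▸ Dvd.dvd.mul_right (dvd_pow h hp0) _)
  -- the linear relation between the three factors
  obtain ⟨w₂₀, hw₂₀⟩ := D.isPrimitiveRoot.nthRootsFinset_pairwise_associated_sub_one_sub_of_prime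
    D.prime hη₂ hη₀ hne₂₀
  obtain ⟨w₀₁, hw₀₁⟩ := D.isPrimitiveRoot.nthRootsFinset_pairwise_associated_sub_one_sub_of_prime
    D.prime hη₀ hη₁ hne₁₀.symm
  obtain ⟨w₂₁, hw₂₁⟩ := D.isPrimitiveRoot.nthRootsFinset_pairwise_associated_sub_one_sub_of_prime
    D.prime hη₂ hη₁ hne₁₂.symm
  have hrel : (w₂₀ : R) * a η₁ + w₀₁ * a η₂ = w₂₁ * a η₀ := by
    apply mul_left_cancel₀ D.ne_zero
    apply mul_left_cancel₀ D.ne_zero
    linear_combination (-(z - 1) * (w₂₀ : R)) * ha η₁ hη₁ + (-(z - 1) * (w₀₁ : R)) * ha η₂ hη₂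
      + ((z - 1) * (w₂₁ : R)) * ha η₀ hη₀ + (x + η₁ * y) * hw₂₀ + (x + η₂ * y) * hw₀₁
      - (x + η₀ * y) * hw₂₁
  -- normalise
  set c : Rˣ := w₂₀ * u₁ with hc
  set θ : Rˣ := c⁻¹ * w₀₁ * u₂ with hθ
  set ε' : Rˣ := c⁻¹ * w₂₁ * u₀ with hε'
  have hcc : ((c⁻¹ : Rˣ) : R) * (c : R) = 1 := Units.inv_mul c
  have hmain : ρ₁ ^ p + θ * ρ₂ ^ p = ε' * (z - 1) ^ ((m - 1) * p) * ρ₀ ^ p := by
    have hcv : (c : R) = w₂₀ * u₁ := by rw [hc]; push_cast; ring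
    have hθv : (θ : R) = ((c⁻¹ : Rˣ) : R) * w₀₁ * u₂ := by rw [hθ]; push_cast; ring
    have hε'v : (ε' : R) = ((c⁻¹ : Rˣ) : R) * w₂₁ * u₀ := by rw [hε']; push_cast; ring
    rw [hθv, hε'v]
    linear_combination ((c⁻¹ : Rˣ) : R) * hrel + (((c⁻¹ : Rˣ) : R) * (w₂₀ : R)) * hρ₁
      + (((c⁻¹ : Rˣ) : R) * (w₀₁ : R)) * hρ₂ + (((c⁻¹ : Rˣ) : R) * (w₂₁ : R)) * ha₀
      - (((c⁻¹ : Rˣ) : R) * (w₂₁ : R) * (z - 1) ^ ((m - 1) * p)) * hρ₀
      + (-ρ₁ ^ p) * hcc + (ρ₁ ^ p * ((c⁻¹ : Rˣ) : R)) * hcv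
  -- `θ` is congruent to a rational integer modulo `p`
  have hpdvd : (p : R) ∣ ρ₁ ^ p + θ * ρ₂ ^ p := by
    rw [hmain]
    have h1 : (z - 1) ^ p ∣ (z - 1) ^ ((m - 1) * p) := by
      apply pow_dvd_pow
      have : 1 ≤ m - 1 := by omega
      nlinarith
    exact Dvd.dvd.mul_right (Dvd.dvd.mul_left (D.p_dvd_pow.trans h1) _) _
  obtain ⟨n₁, hn₁⟩ := D.pow_congr ρ₁
  obtain ⟨n₂, hn₂⟩ := D.pow_congr ρ₂
  have hn₂ndvd : ¬ (p : ℤ) ∣ n₂ := by
    rintro ⟨k, hk⟩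
    apply hρ₂ndvd
    apply D.prime_sub_one.dvd_of_dvd_pow (n := p)
    have h1 : z - 1 ∣ ρ₂ ^ p - n₂ := D.sub_one_dvd_p.trans hn₂
    have h2 : z - 1 ∣ (n₂ : R) := by
      rw [hk]; push_cast
      exact Dvd.dvd.mul_right D.sub_one_dvd_p _
    have := dvd_add h1 h2
    rwa [sub_add_cancel] at this
  have hcopZ : IsCoprime (p : ℤ) n₂ :=
    (Nat.prime_iff_prime_int.mp D.prime).irreducible.coprime_iff_not_dvd.mpr hn₂ndvd
  obtain ⟨s, t, hst⟩ := hcopZ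
  have hstR : (s : R) * (p : R) + (t : R) * (n₂ : R) = 1 := by exact_mod_cast congrArg (Int.cast : ℤ → R) hst
  obtain ⟨v, hv⟩ := D.kummer θ ⟨-(n₁ * t), by
    obtain ⟨k₁, hk₁⟩ := hn₁
    obtain ⟨k₂, hk₂⟩ := hn₂
    obtain ⟨k₃, hk₃⟩ := hpdvd
    refine ⟨(θ : R) * s + t * (k₃ - k₁ - θ * k₂), ?_⟩
    push_cast
    linear_combination (-(θ : R)) * hstR + (t : R) * hk₃ - (t : R) * hk₁
      - (t : R) * (θ : R) * hk₂⟩
  refine ⟨ρ₁, v * ρ₂, ρ₀, ε', ?_, ?_, hρ₀ndvd, ?_⟩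
  · have h12 : IsCoprime (a η₁) (a η₂) :=
      D.isCoprime_quot hη₁ hη₂ hne₁₂ (ha η₁ hη₁) (ha η₂ hη₂) hxy
    have hd1 : ρ₁ ∣ a η₁ := hρ₁ ▸ Dvd.dvd.mul_right (dvd_pow_self ρ₁ hp0) _
    have hd2 : ρ₂ ∣ a η₂ := hρ₂ ▸ Dvd.dvd.mul_right (dvd_pow_self ρ₂ hp0) _
    have h12' : IsCoprime ρ₁ ρ₂ :=
      (h12.of_isCoprime_of_dvd_left hd1).of_isCoprime_of_dvd_right hd2
    exact (isCoprime_mul_unit_left_right v.isUnit ρ₁ ρ₂).mpr h12'
  · intro h
    rcases D.prime_sub_one.dvd_or_dvd h with h | h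
    · exact D.prime_sub_one.not_isUnit (isUnit_of_dvd_unit h v.isUnit)
    · exact hρ₂ndvd h
  · rw [mul_pow, ← hmain, hv]
    push_cast
    ring

/-- There is no solution of the generalised equation with `m ≥ 1`. -/
theorem no_solution [IsPrincipalIdealRing R] :
    ∀ m : ℕ, 1 ≤ m → ∀ (x y w : R) (ε : Rˣ), IsCoprime x y → ¬ z - 1 ∣ y → ¬ z - 1 ∣ w →
      x ^ p + y ^ p ≠ ε * (z - 1) ^ (m * p) * w ^ p := by
  intro m
  induction m with
  | zero => intro h; omega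
  | succ k ih =>
    intro _ x y w ε hxy hy hw H
    obtain ⟨h2, x', y', w', ε', hxy', hy', hw', H'⟩ := D.descent (by omega) hxy hy hw H
    exact ih (by omega) x' y' w' ε' hxy' hy' hw' (by simpa using H')

end DescentData

end Abstract

end Fermat.Agent.Kummer.CaseII
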